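import Fermat.Prelude.Def_EllipticCurve_FrobeniusTrace
import Mathlib.RingTheory.Valuation.LocalSubring
import Mathlib.RingTheory.IntegralClosure.IsIntegralClosure.Basic

set_option autoImplicit false

namespace Fermat.Agent.Lib.Frobenius

open scoped Pointwise

/-- Integral elements lie in every valuation subring. -/
theorem mem_of_isIntegral_int {L : Type*} [Field L] (A : ValuationSubring L) {x : L}
    (hx : IsIntegral ℤ x) : x ∈ A := by
  have h1 : IsIntegral A x := hx.tower_top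
  obtain ⟨y, hy⟩ := (IsIntegrallyClosed.isIntegral_iff (R := A) (K := L)).1 h1
  rw [← hy]
  exact y.2

theorem isFrobeniusAt_of (A : ValuationSubring (AlgebraicClosure ℚ)) (ℓ : ℕ) (hℓ : ℓ.Prime)
    (_hA : (ℓ : AlgebraicClosure ℚ) ∈ A.nonunits)
    (σ : AlgebraicClosure ℚ ≃ₐ[ℚ] AlgebraicClosure ℚ)
    (hfrac : ∀ x ∈ A, ∃ b c : AlgebraicClosure ℚ, IsIntegral ℤ b ∧ IsIntegral ℤ c ∧
      b ∉ A.nonunits ∧ x * b = c)
    (hσ : ∀ x : AlgebraicClosure ℚ, IsIntegral ℤ x → σ x - x ^ ℓ ∈ A.nonunits) :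
    A.IsFrobeniusAt σ ℓ := by
  classical
  set v := A.valuation with hv
  have hℓ0 : ℓ ≠ 0 := hℓ.ne_zero
  have hle : ∀ x, IsIntegral ℤ x → v x ≤ 1 := fun x hx =>
    (A.valuation_le_one_iff x).2 (mem_of_isIntegral_int A hx)
  have hσ' : ∀ x, IsIntegral ℤ x → v (σ x - x ^ ℓ) < 1 := fun x hx =>
    A.mem_nonunits_iff.1 (hσ x hx)
  have hσint : ∀ x, IsIntegral ℤ x → IsIntegral ℤ (σ x) := fun x hx =>
    hx.map (σ : AlgebraicClosure ℚ →ₐ[ℚ] AlgebraicClosure ℚ).toRingHom.toIntAlgHom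
  have hσsint : ∀ x, IsIntegral ℤ x → IsIntegral ℤ (σ.symm x) := fun x hx =>
    hx.map (σ.symm : AlgebraicClosure ℚ →ₐ[ℚ] AlgebraicClosure ℚ).toRingHom.toIntAlgHom
  -- key: for integral b, `v (σ b) < 1 → v b < 1`
  have key : ∀ b, IsIntegral ℤ b → v (σ b) < 1 → v b < 1 := by
    intro b hb h
    have h1 : v (b ^ ℓ) < 1 := by
      have : b ^ ℓ = σ b - (σ b - b ^ ℓ) := by ring
      rw [this]
      exact lt_of_le_of_lt (v.map_sub _ _) (max_lt h (hσ' b hb))
    by_contra hcon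
    rw [not_lt] at hcon
    rw [map_pow] at h1
    exact absurd h1 (not_lt.2 (one_le_pow₀ hcon))
  have one_of : ∀ b, IsIntegral ℤ b → b ∉ A.nonunits → v b = 1 := by
    intro b hb hbn
    rw [A.mem_nonunits_iff, not_lt] at hbn
    exact le_antisymm (hle b hb) hbn
  have one_σ : ∀ b, IsIntegral ℤ b → v b = 1 → v (σ b) = 1 := by
    intro b hb h1
    refine le_antisymm (hle _ (hσint b hb)) ?_
    by_contra hcon
    rw [not_le] at hcon
    exact absurd (key b hb hcon) (by rw [h1]; exact lt_irrefl _)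
  have one_σs : ∀ b, IsIntegral ℤ b → v b = 1 → v (σ.symm b) = 1 := by
    intro b hb h1
    refine le_antisymm (hle _ (hσsint b hb)) ?_
    by_contra hcon
    rw [not_le] at hcon
    -- v (σ.symm b) < 1 implies v (σ (σ.symm b)) < 1
    have h2 : v (σ (σ.symm b)) < 1 := by
      have : σ (σ.symm b) = (σ (σ.symm b) - (σ.symm b) ^ ℓ) + (σ.symm b) ^ ℓ := by ring
      rw [this]
      refine lt_of_le_of_lt (v.map_add _ _) (max_lt (hσ' _ (hσsint b hb)) ?_)
      rw [map_pow]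
      exact pow_lt_one₀ zero_le hcon hℓ0
    rw [AlgEquiv.apply_symm_apply, h1] at h2
    exact lt_irrefl _ h2
  have hmap : ∀ x ∈ A, σ x ∈ A := by
    intro x hx
    obtain ⟨b, c, hb, hc, hbn, hxbc⟩ := hfrac x hx
    have h1 : v (σ b) = 1 := one_σ b hb (one_of b hb hbn)
    have h2 : σ x * σ b = σ c := by rw [← map_mul, hxbc]
    rw [← A.valuation_le_one_iff]
    have h3 : v (σ x) = v (σ c) := by rw [← h2, map_mul, h1, mul_one]
    show v (σ x) ≤ 1
    rw [h3]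
    exact hle _ (hσint c hc)
  have hmaps : ∀ x ∈ A, σ.symm x ∈ A := by
    intro x hx
    obtain ⟨b, c, hb, hc, hbn, hxbc⟩ := hfrac x hx
    have h1 : v (σ.symm b) = 1 := one_σs b hb (one_of b hb hbn)
    have h2 : σ.symm x * σ.symm b = σ.symm c := by rw [← map_mul, hxbc]
    rw [← A.valuation_le_one_iff]
    have h3 : v (σ.symm x) = v (σ.symm c) := by rw [← h2, map_mul, h1, mul_one]
    show v (σ.symm x) ≤ 1
    rw [h3]
    exact hle _ (hσsint c hc)
  have hdec : σ ∈ A.decompositionSubgroup ℚ := by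
    rw [MulAction.mem_stabilizer_iff]
    ext x
    rw [ValuationSubring.mem_pointwise_smul_iff_inv_smul_mem]
    constructor
    · intro h
      have := hmap _ h
      simpa using this
    · intro h
      exact hmaps x h
  refine ⟨hdec, ?_⟩
  intro x
  obtain ⟨a, rfl⟩ := IsLocalRing.residue_surjective x
  rw [← IsLocalRing.ResidueField.residue_smul, ← map_pow, ← sub_eq_zero, ← map_sub,
    IsLocalRing.residue_eq_zero_iff, A.valuation_lt_one_iff]
  obtain ⟨b, c, hb, hc, hbn, hxbc⟩ := hfrac a a.2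
  have h1 : v (σ b) = 1 := one_σ b hb (one_of b hb hbn)
  have hcoe : (((⟨σ, hdec⟩ : A.decompositionSubgroup ℚ) • a - a ^ ℓ : A) : AlgebraicClosure ℚ)
      = σ (a : AlgebraicClosure ℚ) - (a : AlgebraicClosure ℚ) ^ ℓ := rfl
  rw [hcoe]
  have h2 : (σ (a : AlgebraicClosure ℚ) - (a : AlgebraicClosure ℚ) ^ ℓ) * σ b
      = (σ c - c ^ ℓ) - (a : AlgebraicClosure ℚ) ^ ℓ * (σ b - b ^ ℓ) := by
    rw [← hxbc, map_mul]; ring
  have h3 : v (σ (a : AlgebraicClosure ℚ) - (a : AlgebraicClosure ℚ) ^ ℓ)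
      = v ((σ c - c ^ ℓ) - (a : AlgebraicClosure ℚ) ^ ℓ * (σ b - b ^ ℓ)) := by
    rw [← h2, map_mul, h1, mul_one]
  show v _ < 1
  rw [h3]
  refine lt_of_le_of_lt (v.map_sub _ _) (max_lt (hσ' c hc) ?_)
  rw [map_mul, map_pow]
  have h4 : v (a : AlgebraicClosure ℚ) ^ ℓ ≤ 1 := pow_le_one₀ zero_le (A.valuation_le_one a)
  calc v (a : AlgebraicClosure ℚ) ^ ℓ * v (σ b - b ^ ℓ) ≤ 1 * v (σ b - b ^ ℓ) :=
        mul_le_mul_left h4 _
    _ = v (σ b - b ^ ℓ) := one_mul _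
    _ < 1 := hσ' b hb

end Fermat.Agent.Lib.Frobenius
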