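import Fermat.Prelude.Def_FLTPrelim_Ramification
import Mathlib.RingTheory.Valuation.LocalSubring

set_option autoImplicit false

namespace Fermat.Agent.Lib.Frobenius

/-- There is a valuation subring of `ℚ̄` lying over any given prime number. -/
theorem exists_liesOverPrime (ℓ : ℕ) (hℓ : ℓ.Prime) :
    ∃ A : ValuationSubring (AlgebraicClosure ℚ), A.LiesOverPrime ℓ := by
  let R : Subring (AlgebraicClosure ℚ) := (Int.castRingHom (AlgebraicClosure ℚ)).range
  let l : R := ⟨(ℓ : AlgebraicClosure ℚ), ⟨(ℓ : ℤ), by simp⟩⟩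
  have hne : Ideal.span {l} ≠ ⊤ := by
    intro h
    rw [Ideal.span_singleton_eq_top] at h
    obtain ⟨⟨y, ⟨n, rfl⟩⟩, hy⟩ := isUnit_iff_exists_inv.mp h
    have h1 : (ℓ : AlgebraicClosure ℚ) * (Int.castRingHom (AlgebraicClosure ℚ)) n = 1 :=
      congrArg Subtype.val hy
    have h2 : ((ℓ : ℤ) * n : ℤ) = 1 := by
      have : (((ℓ : ℤ) * n : ℤ) : AlgebraicClosure ℚ) = ((1 : ℤ) : AlgebraicClosure ℚ) := by
        push_cast
        simpa using h1
      exact_mod_cast this
    have h3 : IsUnit (ℓ : ℤ) := IsUnit.of_mul_eq_one _ h2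
    rw [Int.isUnit_iff_natAbs_eq] at h3
    simp only [Int.natAbs_natCast] at h3
    exact hℓ.one_lt.ne' h3
  obtain ⟨B, -, hB⟩ := Ideal.image_subset_nonunits_valuationSubring (Ideal.span {l}) hne
  exact ⟨B, hB ⟨l, Ideal.subset_span rfl, rfl⟩⟩

end Fermat.Agent.Lib.Frobenius
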