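import Mathlib

set_option autoImplicit false

namespace Fermat.Agent.Lib.Frobenius

open Polynomial

/-- An element of a field lying in every valuation subring is integral over `ℤ`. -/
theorem isIntegral_int_of_forall_mem {K : Type*} [Field K] (y : K)
    (h : ∀ V : ValuationSubring K, y ∈ V) : IsIntegral ℤ y := by
  by_contra hy
  have hy' : y ∉ (integralClosure ℤ K).toSubring := hy
  have : IsIntegrallyClosedIn (integralClosure ℤ K).toSubring K :=
    inferInstanceAs (IsIntegrallyClosedIn (integralClosure ℤ K) K)
  obtain ⟨V, -, hV⟩ := Subring.exists_le_valuationSubring_of_isIntegrallyClosedIn hy'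
  exact hV (h V)

section Horner

variable {K : Type*} [Field K]

/-- The Horner tails `∑_{i ≥ j} a_i x^{i-j}` of an integer polynomial. -/
noncomputable def hornerTail (f : ℤ[X]) (x : K) (j : ℕ) : K := aeval x (divX^[j] f)

theorem coeff_iterate_divX (f : ℤ[X]) (j n : ℕ) : (divX^[j] f).coeff n = f.coeff (n + j) := by
  induction j generalizing n with
  | zero => simp
  | succ j ih =>
    rw [Function.iterate_succ_apply', coeff_divX, ih]
    congr 1
    omega

theorem hornerTail_zero (f : ℤ[X]) (x : K) : hornerTail f x 0 = aeval x f := rfl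

theorem hornerTail_eq (f : ℤ[X]) (x : K) (j : ℕ) :
    hornerTail f x j = hornerTail f x (j + 1) * x + (f.coeff j : K) := by
  have h := divX_mul_X_add (divX^[j] f)
  have h2 := congrArg (aeval x) h
  rw [coeff_iterate_divX, zero_add] at h2
  simp only [map_add, map_mul, aeval_X, aeval_C] at h2
  rw [hornerTail, hornerTail, Function.iterate_succ_apply', ← h2]
  simp

theorem aeval_int_mem (V : ValuationSubring K) {x : K} (hx : x ∈ V) (g : ℤ[X]) :
    aeval x g ∈ V := by
  rw [aeval_eq_sum_range]
  exact sum_mem fun i _ => zsmul_mem (pow_mem hx i) _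

theorem hornerTail_mem (f : ℤ[X]) (x : K) (hf : aeval x f = 0) (V : ValuationSubring K) (j : ℕ) :
    hornerTail f x j ∈ V := by
  by_cases hx : x ∈ V
  · exact aeval_int_mem V hx _
  · have hx0 : x ≠ 0 := fun h => hx (h ▸ V.zero_mem)
    have hxi : x⁻¹ ∈ V := (V.mem_or_inv_mem x).resolve_left hx
    induction j with
    | zero => rw [hornerTail_zero, hf]; exact V.zero_mem
    | succ j ih =>
      have h := hornerTail_eq f x j
      have h2 : hornerTail f x (j + 1) = (hornerTail f x j - (f.coeff j : K)) * x⁻¹ := by
        rw [h]; field_simp; ring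
      rw [h2]
      exact V.mul_mem _ _ (V.sub_mem ih (intCast_mem V _)) hxi

theorem isIntegral_hornerTail (f : ℤ[X]) (x : K) (hf : aeval x f = 0) (j : ℕ) :
    IsIntegral ℤ (hornerTail f x j) :=
  isIntegral_int_of_forall_mem _ fun V => hornerTail_mem f x hf V j

theorem hornerTail_mem_nonunits (A : ValuationSubring K) (f : ℤ[X]) {x : K} (hx : x ∈ A) (j : ℕ)
    (hj : ∀ i, j ≤ i → (f.coeff i : K) ∈ A.nonunits) : hornerTail f x j ∈ A.nonunits := by
  rw [hornerTail, aeval_eq_sum_range, ValuationSubring.mem_nonunits_iff]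
  refine Valuation.map_sum_lt _ one_ne_zero fun i _ => ?_
  rw [coeff_iterate_divX, zsmul_eq_mul, map_mul, map_pow]
  have h1 : A.valuation (f.coeff (i + j) : K) < 1 :=
    (ValuationSubring.mem_nonunits_iff A).mp (hj _ (by omega))
  have h2 : A.valuation x ≤ 1 := (A.valuation_le_one_iff x).mpr hx
  calc A.valuation (f.coeff (i + j) : K) * A.valuation x ^ i
      ≤ A.valuation (f.coeff (i + j) : K) * 1 := by
        gcongr
        exact pow_le_one₀ zero_le h2
    _ < 1 := by rwa [mul_one]

end Horner

/-- A primitive integer polynomial has a coefficient which is a unit of a given valuation subring. -/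
theorem exists_coeff_not_mem_nonunits {K : Type*} [Field K] (A : ValuationSubring K) (f : ℤ[X])
    (hf : f.IsPrimitive) : ∃ i, (f.coeff i : K) ∉ A.nonunits := by
  by_contra hcon
  push Not at hcon
  let I : Ideal ℤ := Ideal.comap (algebraMap ℤ A) (IsLocalRing.maximalIdeal A)
  have hI : I ≠ ⊤ := Ideal.comap_ne_top _ (IsLocalRing.maximalIdeal.isMaximal A).ne_top
  have hmem : ∀ i, f.coeff i ∈ I := by
    intro i
    rw [Ideal.mem_comap, ← ValuationSubring.coe_mem_nonunits_iff]
    simpa using hcon i
  have hgen : I = Ideal.span {Submodule.IsPrincipal.generator I} :=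
    (Ideal.span_singleton_generator I).symm
  have hdvd : C (Submodule.IsPrincipal.generator I) ∣ f := by
    rw [C_dvd_iff_dvd_coeff]
    intro i
    exact (Submodule.IsPrincipal.mem_iff_generator_dvd I).mp (hmem i)
  have hu := hf _ hdvd
  apply hI
  rw [hgen]
  exact Ideal.span_singleton_eq_top.mpr hu

/-- General form: every element of a valuation subring `A` of a field `K` which is algebraic over
`ℤ` is a fraction `c / b` of integral elements with `b` a unit of `A`. -/
theorem exists_integral_fraction_of_isAlgebraic {K : Type*} [Field K] [CharZero K]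
    (A : ValuationSubring K) (x : K) (hx : x ∈ A) (halg : IsAlgebraic ℤ x) :
    ∃ b c : K, IsIntegral ℤ b ∧ IsIntegral ℤ c ∧ b ∉ A.nonunits ∧ x * b = c := by
  classical
  obtain ⟨p, hp0, hp⟩ := halg
  set f := p.primPart with hfdef
  have hf0 : aeval x f = 0 := aeval_primPart_eq_zero hp0 hp
  have hprim : f.IsPrimitive := p.isPrimitive_primPart
  obtain ⟨i0, hi0⟩ := exists_coeff_not_mem_nonunits A f hprim
  have hzero : (0 : K) ∈ A.nonunits := by
    rw [ValuationSubring.mem_nonunits_iff, map_zero]; exact zero_lt_one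
  have hle : ∀ i, (f.coeff i : K) ∉ A.nonunits → i ≤ f.natDegree := by
    intro i hi
    by_contra hlt
    rw [coeff_eq_zero_of_natDegree_lt (by omega)] at hi
    exact hi (by simp [hzero])
  set j := Nat.findGreatest (fun i => (f.coeff i : K) ∉ A.nonunits) f.natDegree with hjdef
  have hj : (f.coeff j : K) ∉ A.nonunits :=
    Nat.findGreatest_spec (P := fun i => (f.coeff i : K) ∉ A.nonunits) (hle i0 hi0) hi0
  have hgt : ∀ i, j + 1 ≤ i → (f.coeff i : K) ∈ A.nonunits := by
    intro i hi
    by_contra hcon
    exact Nat.findGreatest_is_greatest (P := fun i => (f.coeff i : K) ∉ A.nonunits)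
      (n := f.natDegree) (k := i) (by omega) (hle i hcon) hcon
  have htail : hornerTail f x (j + 1) ∈ A.nonunits := hornerTail_mem_nonunits A f hx (j + 1) hgt
  have hb : hornerTail f x j ∉ A.nonunits := by
    intro hcon
    apply hj
    have h := hornerTail_eq f x j
    have h2 : (f.coeff j : K) = hornerTail f x j - hornerTail f x (j + 1) * x := by rw [h]; ring
    rw [h2, ValuationSubring.mem_nonunits_iff]
    rw [ValuationSubring.mem_nonunits_iff] at hcon htail
    refine Valuation.map_sub_lt _ hcon ?_
    rw [map_mul]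
    calc A.valuation (hornerTail f x (j + 1)) * A.valuation x
        ≤ A.valuation (hornerTail f x (j + 1)) * 1 := by
          gcongr
          exact (A.valuation_le_one_iff x).mpr hx
      _ < 1 := by rwa [mul_one]
  have hj0 : j ≠ 0 := by
    intro h0
    rw [h0, hornerTail_zero, hf0] at hb
    exact hb hzero
  obtain ⟨k, hk⟩ := Nat.exists_eq_succ_of_ne_zero hj0
  refine ⟨hornerTail f x j, hornerTail f x k - (f.coeff k : K), isIntegral_hornerTail f x hf0 j,
    (isIntegral_hornerTail f x hf0 k).sub (by simpa using (isIntegral_algebraMap (R := ℤ) (A := K) (x := f.coeff k))), hb, ?_⟩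
  rw [hornerTail_eq f x k, hk]
  ring

theorem exists_integral_fraction (A : ValuationSubring (AlgebraicClosure ℚ))
    (x : AlgebraicClosure ℚ) (hx : x ∈ A) :
    ∃ b c : AlgebraicClosure ℚ, IsIntegral ℤ b ∧ IsIntegral ℤ c ∧ b ∉ A.nonunits ∧ x * b = c := by
  refine exists_integral_fraction_of_isAlgebraic A x hx ?_
  have h : IsAlgebraic ℚ x := (AlgebraicClosure.isAlgebraic ℚ).isAlgebraic x
  exact (IsFractionRing.isAlgebraic_iff ℤ ℚ (AlgebraicClosure ℚ)).mpr h

end Fermat.Agent.Lib.Frobenius
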