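import Mathlib
import Fermat.Prelude.Def_EllipticCurve_FrobeniusTrace

set_option autoImplicit false
set_option linter.style.haveILetI false

namespace Fermat.Agent.Lib.Frobenius

open scoped Pointwise

/-- `AlgebraicClosure ℚ` is an algebraic closure of `ℚ` for the default `ℚ`-algebra structure
(the one found by instance resolution, coming from `DivisionRing.toRatAlgebra`). -/
theorem isAlgClosure_rat : IsAlgClosure ℚ (AlgebraicClosure ℚ) := by
  have h : (DivisionRing.toRatAlgebra : Algebra ℚ (AlgebraicClosure ℚ)) =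
      AlgebraicClosure.instAlgebra ℚ := Subsingleton.elim _ _
  rw [h]
  infer_instance

theorem isGalois_rat : IsGalois ℚ (AlgebraicClosure ℚ) := by
  have := isAlgClosure_rat
  infer_instance

theorem isIntegral_rat : Algebra.IsIntegral ℚ (AlgebraicClosure ℚ) := by
  have := isGalois_rat
  infer_instance

/-- The ring of all algebraic integers inside `AlgebraicClosure ℚ`. -/
noncomputable abbrev Zbar : Subalgebra ℤ (AlgebraicClosure ℚ) :=
  integralClosure ℤ (AlgebraicClosure ℚ)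

/-- The absolute Galois group acts on the algebraic integers. -/
@[instance_reducible]
noncomputable def zbarAction :
    MulSemiringAction (AlgebraicClosure ℚ ≃ₐ[ℚ] AlgebraicClosure ℚ) Zbar where
  smul σ x := ⟨σ x.1, x.2.map (σ.toAlgHom.restrictScalars ℤ)⟩
  one_smul _ := Subtype.ext rfl
  mul_smul _ _ _ := Subtype.ext rfl
  smul_zero σ := Subtype.ext (map_zero σ)
  smul_add σ _ _ := Subtype.ext (map_add σ _ _)
  smul_one σ := Subtype.ext (map_one σ)
  smul_mul σ _ _ := Subtype.ext (map_mul σ _ _)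

attribute [local instance] zbarAction

lemma zbar_smul_coe (σ : AlgebraicClosure ℚ ≃ₐ[ℚ] AlgebraicClosure ℚ) (x : Zbar) :
    ((σ • x : Zbar) : AlgebraicClosure ℚ) = σ x.1 := rfl

lemma zbar_smulCommClass :
    SMulCommClass (AlgebraicClosure ℚ ≃ₐ[ℚ] AlgebraicClosure ℚ) ℤ Zbar where
  smul_comm σ n x := Subtype.ext (by
    simp)

lemma zbar_isInvariant :
    Algebra.IsInvariant ℤ Zbar (AlgebraicClosure ℚ ≃ₐ[ℚ] AlgebraicClosure ℚ) where
  isInvariant b hb := by
    have := isGalois_rat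
    have h1 : (b : AlgebraicClosure ℚ) ∈ (⊥ : IntermediateField ℚ (AlgebraicClosure ℚ)) := by
      rw [InfiniteGalois.mem_bot_iff_fixed]
      intro σ
      exact congrArg Subtype.val (hb σ)
    rw [IntermediateField.mem_bot] at h1
    obtain ⟨k, hk⟩ := h1
    have hb' : IsIntegral ℤ (b : AlgebraicClosure ℚ) := b.2
    rw [← hk, isIntegral_algebraMap_iff (FaithfulSMul.algebraMap_injective ℚ _)] at hb'
    obtain ⟨a, rfl⟩ := IsIntegrallyClosed.algebraMap_eq_of_integral hb'
    refine ⟨a, Subtype.ext ?_⟩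
    rw [← hk]
    simp

lemma mem_valuationSubring_of_isIntegral (A : ValuationSubring (AlgebraicClosure ℚ))
    {x : AlgebraicClosure ℚ} (hx : IsIntegral ℤ x) : x ∈ A := by
  have h1 : IsIntegral A x := hx.tower_top
  obtain ⟨a, ha⟩ := IsIntegrallyClosed.algebraMap_eq_of_integral h1
  rw [← ha]
  exact a.2

theorem exists_frob_on_integers (A : ValuationSubring (AlgebraicClosure ℚ)) (ℓ : ℕ)
    (hℓ : ℓ.Prime) (hA : (ℓ : AlgebraicClosure ℚ) ∈ A.nonunits) :
    ∃ σ : (AlgebraicClosure ℚ ≃ₐ[ℚ] AlgebraicClosure ℚ),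
      ∀ x : AlgebraicClosure ℚ, IsIntegral ℤ x → σ x - x ^ ℓ ∈ A.nonunits := by
  classical
  haveI : Fact ℓ.Prime := ⟨hℓ⟩
  haveI := zbar_smulCommClass
  haveI := zbar_isInvariant
  haveI := isGalois_rat
  haveI := isIntegral_rat
  have hmem : ∀ x : Zbar, (x : AlgebraicClosure ℚ) ∈ A :=
    fun x => mem_valuationSubring_of_isIntegral A x.2
  let ι : Zbar →+* A :=
    { toFun := fun x => ⟨x.1, hmem x⟩
      map_one' := rfl
      map_mul' := fun _ _ => rfl
      map_zero' := rfl
      map_add' := fun _ _ => rfl }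
  let Q : Ideal Zbar := (IsLocalRing.maximalIdeal A).comap ι
  have hQmem : ∀ x : Zbar, x ∈ Q ↔ (x : AlgebraicClosure ℚ) ∈ A.nonunits := by
    intro x
    rw [ValuationSubring.mem_nonunits_iff_exists_mem_maximalIdeal]
    constructor
    · intro h
      exact ⟨hmem x, h⟩
    · rintro ⟨_, h⟩
      exact h
  haveI hQprime : Q.IsPrime := Ideal.comap_isPrime ι _
  let P : Ideal ℤ := Ideal.span {(ℓ : ℤ)}
  haveI hPmax : P.IsMaximal := by
    have : Prime (ℓ : ℤ) := Nat.prime_iff_prime_int.mp hℓ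
    exact PrincipalIdealRing.isMaximal_of_irreducible this.irreducible
  have hℓQ : ((ℓ : ℤ) : Zbar) ∈ Q := by
    rw [hQmem]
    simpa using hA
  haveI hLO : Q.LiesOver P := by
    constructor
    apply hPmax.eq_of_le
    · exact (Ideal.comap_isPrime (algebraMap ℤ Zbar) Q).ne_top
    · rw [Ideal.span_le]
      intro y hy
      rw [Set.mem_singleton_iff] at hy
      subst hy
      simpa [Ideal.under, Ideal.mem_comap] using hℓQ
  letI : TopologicalSpace Zbar := ⊥
  haveI : DiscreteTopology Zbar := ⟨rfl⟩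
  haveI : ContinuousSMul (AlgebraicClosure ℚ ≃ₐ[ℚ] AlgebraicClosure ℚ) Zbar := by
    rw [continuousSMul_iff_stabilizer_isOpen]
    intro x
    convert stabilizer_isOpen_of_isIntegral (K := ℚ) (L := AlgebraicClosure ℚ) x.1 using 1
    ext σ
    simp only [SetLike.mem_coe, MulAction.mem_stabilizer_iff]
    constructor
    · intro h
      exact congrArg Subtype.val h
    · intro h
      exact Subtype.ext h
  haveI hchar : CharP (Zbar ⧸ Q) ℓ := by
    have h0 : ((ℓ : ℕ) : Zbar ⧸ Q) = 0 := by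
      have : (Ideal.Quotient.mk Q ((ℓ : ℤ) : Zbar)) = 0 := Ideal.Quotient.eq_zero_iff_mem.mpr hℓQ
      simpa using this
    exact (CharP.charP_iff_prime_eq_zero hℓ).mpr h0
  haveI : PerfectRing (Zbar ⧸ Q) ℓ := by
    apply PerfectRing.ofSurjective
    intro y
    obtain ⟨y, rfl⟩ := Ideal.Quotient.mk_surjective y
    obtain ⟨z, hz⟩ := IsAlgClosed.exists_pow_nat_eq (y : AlgebraicClosure ℚ) hℓ.pos
    have hzint : IsIntegral ℤ z := by
      apply IsIntegral.of_pow hℓ.pos
      rw [hz]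
      exact y.2
    refine ⟨Ideal.Quotient.mk Q ⟨z, hzint⟩, ?_⟩
    rw [frobenius_def, ← map_pow]
    congr 1
    exact Subtype.ext hz
  let l : (Zbar ⧸ Q) ≃ₐ[ℤ ⧸ P] (Zbar ⧸ Q) :=
    { __ := frobeniusEquiv (Zbar ⧸ Q) ℓ
      commutes' := by
        intro r
        obtain ⟨r, rfl⟩ := Ideal.Quotient.mk_surjective r
        change frobenius (Zbar ⧸ Q) ℓ (Ideal.Quotient.mk Q (algebraMap ℤ Zbar r)) =
          Ideal.Quotient.mk Q (algebraMap ℤ Zbar r)
        rw [frobenius_def, ← map_pow, ← map_pow, Ideal.Quotient.eq, ← map_sub]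
        have h2 : (ℓ : ℤ) ∣ r ^ ℓ - r := by
          rw [← ZMod.intCast_zmod_eq_zero_iff_dvd]
          push_cast
          rw [ZMod.pow_card, sub_self]
        obtain ⟨c, hc⟩ := h2
        rw [hc, map_mul]
        exact Q.mul_mem_right _ (by simpa using hℓQ) }
  obtain ⟨σ, hσ⟩ := Ideal.Quotient.stabilizerHom_surjective_of_profinite
    (G := (AlgebraicClosure ℚ ≃ₐ[ℚ] AlgebraicClosure ℚ)) P Q l
  refine ⟨σ.1, fun x hx => ?_⟩
  have h1 := DFunLike.congr_fun hσ (Ideal.Quotient.mk Q ⟨x, hx⟩)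
  change Ideal.Quotient.mk Q (σ.1 • (⟨x, hx⟩ : Zbar)) =
    frobenius (Zbar ⧸ Q) ℓ (Ideal.Quotient.mk Q ⟨x, hx⟩) at h1
  rw [frobenius_def, ← map_pow, Ideal.Quotient.eq, hQmem] at h1
  exact h1

end Fermat.Agent.Lib.Frobenius
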